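import Mathlib

set_option autoImplicit false

/-!
# S14, package A, lemma A3: the abstract eigenfunctional lemma

`A` a finite abelian group, `G` a finite group of order prime to `p` acting on `A` by additive
endomorphisms `ρ g` (only `ρ (g * h) = ρ g ∘ ρ h` is used), `χ : G →* (ZMod p)ˣ` a character,
`c ≠ 0` a `p`-torsion element on which `G` acts through `χ`.  Then there is a nonzero additive
functional `φ : A →+ ZMod p` with `φ (ρ g x) = χ g * φ x`.

Proof (no Teichmüller lift): `E := ∑ g, m_g • ρ g` with `m_g` a natural lift of `χ(g)⁻¹`.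
Then `E ∘ ρ h ≡ χ(h) • E` modulo `p` and `E c = |G| • c`.  If `E A ⊆ p A`, then by induction
`c ∈ p^k A` for all `k`, which forces `c = 0`.  So some `E x ∉ p A`; pick a linear functional
`f` on the `𝔽_p`-vector space `A ⧸ p A` with `f (E x) ≠ 0` and put `φ := f ∘ E`.
-/

namespace Fermat.Agent.S14.ClassAlg.EigenFunctional

variable {p : ℕ} [Fact p.Prime]

/-- On `p`-torsion elements, natural multiples only depend on the multiplier modulo `p`. -/
theorem nsmul_eq_of_natCast_eq {A : Type*} [AddCommGroup A] {c : A} (hpc : p • c = 0)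
    {n m : ℕ} (h : (n : ZMod p) = (m : ZMod p)) : n • c = m • c := by
  rw [ZMod.natCast_eq_natCast_iff, Nat.modEq_iff_dvd] at h
  obtain ⟨k, hk⟩ := h
  have h1 : ((m : ℤ) - (n : ℤ)) • c = 0 := by
    rw [hk, mul_comm, mul_smul, natCast_zsmul, hpc, smul_zero]
  rw [sub_smul, natCast_zsmul, natCast_zsmul, sub_eq_zero] at h1
  exact h1.symm

/-- A multiplier prime to `p` has an inverse on `p`-torsion elements. -/
theorem exists_nsmul_inv {k : ℕ} (hk : ¬ p ∣ k) :
    ∃ u : ℕ, ∀ {A : Type*} [AddCommGroup A] (c : A), p • c = 0 → u • (k • c) = c := by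
  have hk0 : (k : ZMod p) ≠ 0 := by
    rwa [Ne, ZMod.natCast_eq_zero_iff]
  refine ⟨((k : ZMod p)⁻¹).val, fun c hpc => ?_⟩
  rw [smul_smul]
  have h1 : ((((k : ZMod p)⁻¹).val * k : ℕ) : ZMod p) = ((1 : ℕ) : ZMod p) := by
    rw [Nat.cast_mul, ZMod.natCast_zmod_val, Nat.cast_one, inv_mul_cancel₀ hk0]
  rw [nsmul_eq_of_natCast_eq hpc h1, one_smul]

/-- A `p`-torsion element killed by a multiplier prime to `p` is zero. -/
theorem eq_zero_of_nsmul_eq_zero {A : Type*} [AddCommGroup A] {c : A} (hpc : p • c = 0)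
    {k : ℕ} (hk : ¬ p ∣ k) (h : k • c = 0) : c = 0 := by
  obtain ⟨u, hu⟩ := exists_nsmul_inv (p := p) hk
  rw [← hu c hpc, h, smul_zero]

/-- **A3, abstract eigenfunctional lemma** (general form: the action is any family of additive
endomorphisms with `ρ (g * h) = ρ g ∘ ρ h`; the eigen-relation for `c` is given through any
natural lift of `χ g`). -/
theorem exists_eigenfunctional {A : Type*} [AddCommGroup A] [Finite A]
    {G : Type*} [Group G] [Finite G] (hG : ¬ p ∣ Nat.card G)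
    (ρ : G → A →+ A) (hρ : ∀ (g h : G) (x : A), ρ (g * h) x = ρ g (ρ h x))
    (χ : G →* (ZMod p)ˣ) (c : A) (hc : c ≠ 0) (hpc : p • c = 0)
    (hgc : ∀ g : G, ∃ n : ℕ, (n : ZMod p) = (χ g : ZMod p) ∧ ρ g c = n • c) :
    ∃ φ : A →+ ZMod p, φ ≠ 0 ∧ ∀ (g : G) (x : A), φ (ρ g x) = (χ g : ZMod p) * φ x := by
  classical
  have := Fintype.ofFinite G
  have hp : p.Prime := Fact.out
  -- natural lifts of `χ(g)⁻¹`
  let m : G → ℕ := fun g => (((χ g)⁻¹ : (ZMod p)ˣ) : ZMod p).val
  have hm : ∀ g, ((m g : ℕ) : ZMod p) = (((χ g)⁻¹ : (ZMod p)ˣ) : ZMod p) :=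
    fun g => ZMod.natCast_zmod_val _
  -- the averaging operator
  let E : A →+ A := ∑ g, m g • ρ g
  have hE_apply : ∀ x, E x = ∑ g, m g • ρ g x := by
    intro x
    simp only [E, AddMonoidHom.finsetSum_apply, AddMonoidHom.smul_apply]
  have hE_nsmul : ∀ (k : ℕ) (x : A), E (k • x) = k • E x := fun k x => map_nsmul E k x
  -- `E c = |G| • c`
  have hEc : E c = Nat.card G • c := by
    rw [hE_apply]
    have h1 : ∀ g, m g • ρ g c = c := by
      intro g
      obtain ⟨n, hn, hgn⟩ := hgc g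
      rw [hgn, smul_smul]
      have h2 : ((m g * n : ℕ) : ZMod p) = ((1 : ℕ) : ZMod p) := by
        rw [Nat.cast_mul, hm, hn, Nat.cast_one, ← Units.val_mul, inv_mul_cancel, Units.val_one]
      rw [nsmul_eq_of_natCast_eq hpc h2, one_smul]
    rw [Finset.sum_congr rfl (fun g _ => h1 g), Finset.sum_const, Finset.card_univ,
      Nat.card_eq_fintype_card]
  -- some `E x` is not divisible by `p`
  have hx : ∃ x : A, ∀ z : A, E x ≠ p • z := by
    by_contra hcon
    replace hcon : ∀ x : A, ∃ z : A, E x = p • z := by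
      intro x
      by_contra h
      exact hcon ⟨x, fun z hz => h ⟨z, hz⟩⟩
    obtain ⟨u, hu⟩ := exists_nsmul_inv (p := p) hG
    have hk : ∀ k : ℕ, ∃ d : A, c = p ^ k • d := by
      intro k
      induction k with
      | zero => exact ⟨c, by simp⟩
      | succ k ih =>
        obtain ⟨d, hd⟩ := ih
        obtain ⟨w, hw⟩ := hcon d
        refine ⟨u • w, ?_⟩
        have h3 : Nat.card G • c = p ^ (k + 1) • w := by
          rw [← hEc, hd, hE_nsmul, hw, smul_smul, ← pow_succ]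
        rw [smul_comm, ← h3, hu c hpc]
    have hA0 : Nat.card A ≠ 0 := Nat.card_pos.ne'
    obtain ⟨a, m', hm', hcard⟩ := Nat.exists_eq_pow_mul_and_not_dvd hA0 p hp.ne_one
    obtain ⟨d, hd⟩ := hk a
    apply hc
    apply eq_zero_of_nsmul_eq_zero hpc hm'
    rw [hd, smul_smul, mul_comm, ← hcard]
    exact card_nsmul_eq_zero'
  obtain ⟨x, hx⟩ := hx
  -- the `𝔽_p`-vector space `A ⧸ p A`
  let S : AddSubgroup A := (nsmulAddMonoidHom (α := A) p).range
  have hV : ∀ v : A ⧸ S, p • v = 0 := by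
    intro v
    induction v using QuotientAddGroup.induction_on with
    | H a =>
      rw [← QuotientAddGroup.mk_nsmul, QuotientAddGroup.eq_zero_iff]
      exact ⟨a, rfl⟩
  have instV : Module (ZMod p) (A ⧸ S) := AddCommGroup.zmodModule hV
  have hEx : (QuotientAddGroup.mk (E x) : A ⧸ S) ≠ 0 := by
    rw [Ne, QuotientAddGroup.eq_zero_iff]
    rintro ⟨z, hz⟩
    exact hx z hz.symm
  obtain ⟨f, hf⟩ : ∃ f : (A ⧸ S) →ₗ[ZMod p] ZMod p, f (QuotientAddGroup.mk (E x)) ≠ 0 := by
    by_contra hcon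
    refine hEx ((Module.forall_dual_apply_eq_zero_iff (ZMod p) _).mp (fun f => ?_))
    by_contra h
    exact hcon ⟨f, h⟩
  let ψ : A →+ ZMod p := f.toAddMonoidHom.comp (QuotientAddGroup.mk' S)
  have hψ : ∀ (k : ℕ) (y : A), ψ (k • y) = (k : ZMod p) * ψ y := by
    intro k y
    rw [map_nsmul, nsmul_eq_mul]
  refine ⟨ψ.comp E, ?_, ?_⟩
  · intro h0
    apply hf
    have := DFunLike.congr_fun h0 x
    simpa [ψ] using this
  · intro h y
    have hφ : ∀ y, (ψ.comp E) y = ∑ g, (((χ g)⁻¹ : (ZMod p)ˣ) : ZMod p) * ψ (ρ g y) := by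
      intro y
      rw [AddMonoidHom.comp_apply, hE_apply, map_sum]
      exact Finset.sum_congr rfl (fun g _ => by rw [hψ, hm])
    rw [hφ, hφ, Finset.mul_sum]
    refine Fintype.sum_equiv (Equiv.mulRight h) _ _ (fun g => ?_)
    rw [Equiv.coe_mulRight, ← hρ, ← mul_assoc]
    congr 1
    rw [← Units.val_mul, map_mul, mul_inv_rev, mul_inv_cancel_left]

/-- **A3**, in the form where the eigen-relation uses the canonical lift `ZMod.val`. -/
theorem exists_eigenfunctional_val {A : Type*} [AddCommGroup A] [Finite A]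
    {G : Type*} [Group G] [Finite G] (hG : ¬ p ∣ Nat.card G)
    (ρ : G → A →+ A) (hρ : ∀ (g h : G) (x : A), ρ (g * h) x = ρ g (ρ h x))
    (χ : G →* (ZMod p)ˣ) (c : A) (hc : c ≠ 0) (hpc : p • c = 0)
    (hgc : ∀ g : G, ρ g c = (χ g : ZMod p).val • c) :
    ∃ φ : A →+ ZMod p, φ ≠ 0 ∧ ∀ (g : G) (x : A), φ (ρ g x) = (χ g : ZMod p) * φ x :=
  exists_eigenfunctional hG ρ hρ χ c hc hpc
    (fun g => ⟨_, ZMod.natCast_zmod_val _, hgc g⟩)

/-- **A3** for a `DistribMulAction`. -/
theorem exists_eigenfunctional_smul {A : Type*} [AddCommGroup A] [Finite A]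
    {G : Type*} [Group G] [Finite G] [DistribMulAction G A] (hG : ¬ p ∣ Nat.card G)
    (χ : G →* (ZMod p)ˣ) (c : A) (hc : c ≠ 0) (hpc : p • c = 0)
    (hgc : ∀ g : G, ∃ n : ℕ, (n : ZMod p) = (χ g : ZMod p) ∧ g • c = n • c) :
    ∃ φ : A →+ ZMod p, φ ≠ 0 ∧ ∀ (g : G) (x : A), φ (g • x) = (χ g : ZMod p) * φ x :=
  exists_eigenfunctional hG (fun g => DistribSMul.toAddMonoidHom A g)
    (fun g h x => mul_smul g h x) χ c hc hpc hgc

/-- The hypothesis `hG` for the Galois group of the `p`-th cyclotomic field: its order `p - 1`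
is prime to `p`. -/
theorem card_aut_cyclotomic (K : Type*) [Field K] [NumberField K]
    [IsCyclotomicExtension {p} ℚ K] : Nat.card (K ≃ₐ[ℚ] K) = p - 1 := by
  have hp : p.Prime := Fact.out
  have : NeZero p := ⟨hp.ne_zero⟩
  have : IsGalois ℚ K := IsCyclotomicExtension.isGalois {p} ℚ K
  rw [IsGalois.card_aut_eq_finrank,
    IsCyclotomicExtension.finrank K (Polynomial.cyclotomic.irreducible_rat hp.pos),
    Nat.totient_prime hp]

theorem not_dvd_card_aut_cyclotomic (K : Type*) [Field K] [NumberField K]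
    [IsCyclotomicExtension {p} ℚ K] : ¬ p ∣ Nat.card (K ≃ₐ[ℚ] K) := by
  have hp : p.Prime := Fact.out
  rw [card_aut_cyclotomic (p := p) K]
  exact Nat.not_dvd_of_pos_of_lt (Nat.sub_pos_of_lt hp.one_lt) (Nat.sub_lt hp.pos Nat.one_pos)

end Fermat.Agent.S14.ClassAlg.EigenFunctional
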