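import Fermat.Agent.S14.Defs
import Fermat.Prelude.Def_ClassGroup_GaloisAction
import Fermat.Agent.S14.ClassAlg.EigenFunctional

set_option autoImplicit false

open scoped NumberField nonZeroDivisors
open IsDedekindDomain Fermat.Agent.S14.Defs

namespace Fermat.Agent.S14.ClassAlg.GalClass

variable {p : ℕ} {K : Type} [Field K] [NumberField K] {ζ : K}

/-- `p`-th roots of ideals of a Dedekind domain are unique. -/
theorem ideal_pow_inj {R : Type*} [CommRing R] [IsDedekindDomain R] {n : ℕ} (hn : n ≠ 0)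
    {I J : Ideal R} (h : I ^ n = J ^ n) : I = J := by
  have h1 : I ∣ J := (UniqueFactorizationMonoid.pow_dvd_pow_iff_dvd hn).mp (dvd_of_eq h)
  have h2 : J ∣ I := (UniqueFactorizationMonoid.pow_dvd_pow_iff_dvd hn).mp (dvd_of_eq h.symm)
  exact dvd_antisymm h1 h2

theorem sigmaO_coe (σ : K ≃ₐ[ℚ] K) (x : 𝓞 K) : ((sigmaO σ x : 𝓞 K) : K) = σ (x : K) := rfl

theorem map_span_singleton_sigmaO (σ : K ≃ₐ[ℚ] K) (a : 𝓞 K) :
    Ideal.map (sigmaO σ) (Ideal.span {a}) = Ideal.span {sigmaO σ a} := by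
  rw [Ideal.map_span, Set.image_singleton]

/-- Integral version of the class relation. -/
theorem class_eigen_integral [Fact p.Prime] (J : (Ideal (𝓞 K))⁰) (a : 𝓞 K) (ha : a ≠ 0)
    (hJ : (J : Ideal (𝓞 K)) ^ p = Ideal.span {a}) (h2 : EigenElt p ζ (a : K))
    (σ : K ≃ₐ[ℚ] K) (n : ℕ) (hn : σ ζ = ζ ^ n) :
    ClassGroup.mulEquiv (sigmaO σ) (ClassGroup.mk0 J) = ClassGroup.mk0 J ^ (n ^ 2) := by
  have hp0 : p ≠ 0 := (Fact.out : p.Prime).ne_zero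
  obtain ⟨β, hβ⟩ := h2 σ n hn
  -- write β = b / d
  obtain ⟨b, d, hd, hbd⟩ := IsFractionRing.div_surjective (A := 𝓞 K) β
  have hd0 : d ≠ 0 := nonZeroDivisors.ne_zero hd
  have haK : (a : K) ≠ 0 := by exact_mod_cast ha
  have hσa : σ (a : K) ≠ 0 := by simpa using haK
  have hβ0 : β ≠ 0 := by
    rintro rfl
    rw [zero_pow hp0, mul_zero] at hβ
    exact hσa hβ
  have hb0 : b ≠ 0 := by
    rintro rfl
    rw [map_zero, zero_div] at hbd
    exact hβ0 hbd.symm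
  -- the key identity in `𝓞 K`
  have key : sigmaO σ a * d ^ p = a ^ (n ^ 2) * b ^ p := by
    apply NumberField.RingOfIntegers.ext
    have hdK : (algebraMap (𝓞 K) K d) ≠ 0 := by
      simpa using hd0
    have e1 : ((sigmaO σ a * d ^ p : 𝓞 K) : K) = σ (a : K) * (algebraMap (𝓞 K) K d) ^ p := by
      show algebraMap (𝓞 K) K (sigmaO σ a * d ^ p) = _
      rw [map_mul, map_pow]; rfl
    have e2 : ((a ^ (n ^ 2) * b ^ p : 𝓞 K) : K) =
        (a : K) ^ (n ^ 2) * (algebraMap (𝓞 K) K b) ^ p := by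
      show algebraMap (𝓞 K) K (a ^ (n ^ 2) * b ^ p) = _
      rw [map_mul, map_pow, map_pow]
    rw [e1, e2, hβ, ← hbd, div_pow]
    field_simp
  -- ideals
  rw [ClassGroup.mulEquiv_mk0]
  have hideal : (Ideal.map (sigmaO σ) (J : Ideal (𝓞 K)) * Ideal.span {d}) ^ p =
      ((J : Ideal (𝓞 K)) ^ (n ^ 2) * Ideal.span {b}) ^ p := by
    rw [mul_pow, mul_pow, ← Ideal.map_pow, hJ, ← pow_mul, mul_comm (n ^ 2) p, pow_mul, hJ,
      Ideal.map_span, Set.image_singleton, Ideal.span_singleton_pow, Ideal.span_singleton_pow,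
      Ideal.span_singleton_pow, Ideal.span_singleton_mul_span_singleton,
      Ideal.span_singleton_mul_span_singleton]
    congr 2
  have hroot := ideal_pow_inj hp0 hideal
  have hdmem : Ideal.span {d} ∈ (Ideal (𝓞 K))⁰ :=
    mem_nonZeroDivisors_of_ne_zero (by simpa using hd0)
  have hbmem : Ideal.span {b} ∈ (Ideal (𝓞 K))⁰ :=
    mem_nonZeroDivisors_of_ne_zero (by simpa using hb0)
  have h1 : ClassGroup.mk0 (Ideal.mapNonZero (sigmaO σ) J) * ClassGroup.mk0 ⟨_, hdmem⟩ =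
      ClassGroup.mk0 J ^ (n ^ 2) * ClassGroup.mk0 ⟨_, hbmem⟩ := by
    rw [← map_pow, ← map_mul, ← map_mul]
    congr 1
    apply Subtype.ext
    exact hroot
  have hd1 : ClassGroup.mk0 ⟨_, hdmem⟩ = 1 :=
    (ClassGroup.mk0_eq_one_iff hdmem).mpr ⟨⟨d, rfl⟩⟩
  have hb1 : ClassGroup.mk0 ⟨_, hbmem⟩ = 1 :=
    (ClassGroup.mk0_eq_one_iff hbmem).mpr ⟨⟨b, rfl⟩⟩
  rw [hd1, hb1, mul_one, mul_one] at h1
  exact h1

/-- The eigen-property is stable under multiplication by `p`-th powers. -/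
theorem eigenElt_mul_pow (α x : K) (hx : x ≠ 0) (h : EigenElt p ζ α) :
    EigenElt p ζ (α * x ^ p) := by
  intro σ n hn
  obtain ⟨β, hβ⟩ := h σ n hn
  refine ⟨β * σ x / x ^ (n ^ 2), ?_⟩
  rw [map_mul, map_pow, hβ, div_pow, mul_pow, mul_pow]
  have hx' : x ^ (n ^ 2) ≠ 0 := pow_ne_zero _ hx
  field_simp
  ring

/-- **A4 (1)**. If `I ^ p = (α)` for an `ω²`-eigen-element `α`, then the class of `I` is an
eigenvector: `σ [I] = [I] ^ (n ^ 2)` whenever `σ ζ = ζ ^ n`. -/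
theorem class_eigen [Fact p.Prime] (α : K) (hα : α ≠ 0) (h2 : EigenElt p ζ α)
    (I : (FractionalIdeal (𝓞 K)⁰ K)ˣ)
    (hI : (I : FractionalIdeal (𝓞 K)⁰ K) ^ p = FractionalIdeal.spanSingleton (𝓞 K)⁰ α)
    (σ : K ≃ₐ[ℚ] K) (n : ℕ) (hn : σ ζ = ζ ^ n) :
    ClassGroup.mulEquiv (sigmaO σ) (ClassGroup.mk K I) = ClassGroup.mk K I ^ (n ^ 2) := by
  obtain ⟨d, J, hd, hIJ⟩ :=
    FractionalIdeal.exists_eq_spanSingleton_mul (I : FractionalIdeal (𝓞 K)⁰ K)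
  have hdK : algebraMap (𝓞 K) K d ≠ 0 := by simpa using hd
  have hJ0 : J ≠ ⊥ := by
    rintro rfl
    have : (I : FractionalIdeal (𝓞 K)⁰ K) = 0 := by
      rw [hIJ]; simp
    exact I.ne_zero this
  have hJmem : J ∈ (Ideal (𝓞 K))⁰ := mem_nonZeroDivisors_of_ne_zero hJ0
  -- `J = (d) * I` as fractional ideals
  have hJI : (J : FractionalIdeal (𝓞 K)⁰ K) =
      FractionalIdeal.spanSingleton (𝓞 K)⁰ (algebraMap (𝓞 K) K d) * I := by
    rw [hIJ, ← mul_assoc, FractionalIdeal.spanSingleton_mul_spanSingleton,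
      mul_inv_cancel₀ hdK, FractionalIdeal.spanSingleton_one, one_mul]
  have hJp : ((J ^ p : Ideal (𝓞 K)) : FractionalIdeal (𝓞 K)⁰ K) =
      FractionalIdeal.spanSingleton (𝓞 K)⁰ (α * (algebraMap (𝓞 K) K d) ^ p) := by
    rw [FractionalIdeal.coeIdeal_pow, hJI, mul_pow, hI, FractionalIdeal.spanSingleton_pow,
      FractionalIdeal.spanSingleton_mul_spanSingleton, mul_comm]
  -- the generator is integral
  have hmem : α * (algebraMap (𝓞 K) K d) ^ p ∈ ((J ^ p : Ideal (𝓞 K)) : FractionalIdeal (𝓞 K)⁰ K) := by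
    rw [hJp]; exact FractionalIdeal.mem_spanSingleton_self _ _
  obtain ⟨a, -, haeq⟩ := (FractionalIdeal.mem_coeIdeal _).mp hmem
  have ha0 : a ≠ 0 := by
    rintro rfl
    rw [map_zero] at haeq
    exact mul_ne_zero hα (pow_ne_zero _ hdK) haeq.symm
  have hJa : J ^ p = Ideal.span {a} := by
    apply FractionalIdeal.coeIdeal_injective (K := K)
    show ((J ^ p : Ideal (𝓞 K)) : FractionalIdeal (𝓞 K)⁰ K) = ((Ideal.span {a} : Ideal (𝓞 K)) : FractionalIdeal (𝓞 K)⁰ K)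
    rw [hJp, FractionalIdeal.coeIdeal_span_singleton, haeq]
  have h2a : EigenElt p ζ (a : K) := by
    have : (a : K) = α * (algebraMap (𝓞 K) K d) ^ p := haeq
    rw [this]
    exact eigenElt_mul_pow α _ hdK h2
  -- the classes agree
  have hcls : ClassGroup.mk K I = ClassGroup.mk0 ⟨J, hJmem⟩ := by
    rw [← ClassGroup.mk_mk0 K]
    rw [← mul_inv_eq_one, ← map_inv, ← map_mul, ClassGroup.mk_eq_one_iff]
    have hcoe : ((I * (FractionalIdeal.mk0 K ⟨J, hJmem⟩)⁻¹ : (FractionalIdeal (𝓞 K)⁰ K)ˣ) :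
        FractionalIdeal (𝓞 K)⁰ K) =
        FractionalIdeal.spanSingleton (𝓞 K)⁰ (algebraMap (𝓞 K) K d)⁻¹ := by
      have hJK : (J : FractionalIdeal (𝓞 K)⁰ K) ≠ 0 := FractionalIdeal.coeIdeal_ne_zero.mpr hJ0
      rw [Units.val_mul, Units.val_inv_eq_inv_val, FractionalIdeal.coe_mk0]
      show (I : FractionalIdeal (𝓞 K)⁰ K) * (J : FractionalIdeal (𝓞 K)⁰ K)⁻¹ = _
      rw [hIJ, mul_inv_cancel_right₀ hJK]
    rw [hcoe, FractionalIdeal.coe_spanSingleton]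
    exact ⟨⟨_, rfl⟩⟩
  rw [hcls]
  exact class_eigen_integral ⟨J, hJmem⟩ a ha0 hJa h2a σ n hn

/-- The action of `Gal(K/ℚ)` on the (additive) class group. -/
noncomputable def rho (σ : K ≃ₐ[ℚ] K) :
    Additive (ClassGroup (𝓞 K)) →+ Additive (ClassGroup (𝓞 K)) :=
  MonoidHom.toAdditive (ClassGroup.mulEquiv (sigmaO σ)).toMonoidHom

theorem rho_apply (σ : K ≃ₐ[ℚ] K) (c : ClassGroup (𝓞 K)) :
    rho σ (Additive.ofMul c) = Additive.ofMul (ClassGroup.mulEquiv (sigmaO σ) c) := rfl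

theorem sigmaO_mul (σ τ : K ≃ₐ[ℚ] K) : sigmaO (σ * τ) = (sigmaO τ).trans (sigmaO σ) := by
  apply RingEquiv.ext
  intro x
  apply NumberField.RingOfIntegers.ext
  rfl

theorem rho_mul (σ τ : K ≃ₐ[ℚ] K) (x : Additive (ClassGroup (𝓞 K))) :
    rho (σ * τ) x = rho σ (rho τ x) := by
  show Additive.ofMul (ClassGroup.mulEquiv (sigmaO (σ * τ)) x.toMul) =
    Additive.ofMul (ClassGroup.mulEquiv (sigmaO σ) (ClassGroup.mulEquiv (sigmaO τ) x.toMul))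
  rw [sigmaO_mul, ClassGroup.mulEquiv_trans_apply]

/-- If `σ ζ = ζ ^ n` then the cyclotomic exponent of `σ` is `n` modulo `p`. -/
theorem autToPow_eq_of_apply [Fact p.Prime] [NeZero p] (hζ : IsPrimitiveRoot ζ p) (σ : K ≃ₐ[ℚ] K) (n : ℕ)
    (hn : σ ζ = ζ ^ n) : ((hζ.autToPow ℚ σ : (ZMod p)ˣ) : ZMod p) = (n : ZMod p) := by
  have hp : p.Prime := Fact.out
  have h1 : ζ ^ ((hζ.autToPow ℚ σ : (ZMod p)ˣ) : ZMod p).val = ζ ^ (n % p) := by
    rw [hζ.autToPow_spec ℚ σ, hn]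
    exact pow_eq_pow_mod n hζ.pow_eq_one
  have h2 := hζ.pow_inj (ZMod.val_lt _) (Nat.mod_lt n hp.pos) h1
  rw [← ZMod.natCast_zmod_val ((hζ.autToPow ℚ σ : (ZMod p)ˣ) : ZMod p), h2, ZMod.natCast_mod]

/-- **A4 (2)**. A nontrivial `p`-torsion class which is an `ω²`-eigenvector yields a nonzero
`ω²`-eigenfunctional on the class group. -/
theorem exists_eigenfunctional [Fact p.Prime] [IsCyclotomicExtension {p} ℚ K]
    (hζ : IsPrimitiveRoot ζ p) (c : ClassGroup (𝓞 K)) (hc : c ≠ 1)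
    (hcp : c ^ p = 1)
    (hσ : ∀ (σ : K ≃ₐ[ℚ] K) (n : ℕ), σ ζ = ζ ^ n →
      ClassGroup.mulEquiv (sigmaO σ) c = c ^ (n ^ 2)) :
    ∃ φ : Additive (ClassGroup (𝓞 K)) →+ ZMod p, φ ≠ 0 ∧ IsEigen p ζ φ := by
  have : NeZero p := ⟨(Fact.out : p.Prime).ne_zero⟩
  let χ : (K ≃ₐ[ℚ] K) →* (ZMod p)ˣ := (powMonoidHom 2).comp (hζ.autToPow ℚ)
  have hχ : ∀ σ : K ≃ₐ[ℚ] K, ((χ σ : (ZMod p)ˣ) : ZMod p) =
      ((hζ.autToPow ℚ σ : (ZMod p)ˣ) : ZMod p) ^ 2 := by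
    intro σ
    show (((hζ.autToPow ℚ σ) ^ 2 : (ZMod p)ˣ) : ZMod p) = _
    rw [Units.val_pow_eq_pow_val]
  obtain ⟨φ, hφ0, hφ⟩ := EigenFunctional.exists_eigenfunctional (p := p)
    (EigenFunctional.not_dvd_card_aut_cyclotomic (p := p) K) rho rho_mul χ (Additive.ofMul c)
    (fun h => hc (by simpa using h))
    (by rw [← ofMul_pow, hcp]; rfl)
    (fun σ => by
      refine ⟨(((hζ.autToPow ℚ σ : (ZMod p)ˣ) : ZMod p).val) ^ 2, ?_, ?_⟩
      · rw [hχ, Nat.cast_pow, ZMod.natCast_zmod_val]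
      · rw [rho_apply, hσ σ _ (hζ.autToPow_spec ℚ σ).symm, ofMul_pow])
  refine ⟨φ, hφ0, ?_⟩
  intro σ n hn I J hJ
  have hJ' : ClassGroup.mk0 J = ClassGroup.mulEquiv (sigmaO σ) (ClassGroup.mk0 I) := by
    rw [ClassGroup.mulEquiv_mk0]
    congr 1
    exact Subtype.ext hJ
  rw [hJ', ← rho_apply, hφ, hχ, autToPow_eq_of_apply hζ σ n hn]

end Fermat.Agent.S14.ClassAlg.GalClass
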