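import Fermat.Agent.S14.Defs

/-!
# S14, package A, step A1/A2: `p`-th roots of principal ideals

If every prime valuation of `α ≠ 0` is divisible by `p` (`ValDivisible p α`), then the principal
fractional ideal `(α)` is the `p`-th power of a fractional ideal `I`.  If moreover `I` is
principal, then `α` is a unit times a `p`-th power.
-/

set_option autoImplicit false

open scoped NumberField nonZeroDivisors
open IsDedekindDomain Fermat.Agent.S14.Defs

namespace Fermat.Agent.S14.ClassAlg.IdealRoot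

variable {p : ℕ} {K : Type} [Field K] [NumberField K]

/-- Integral version: if all prime multiplicities of `(a)`, `a ≠ 0`, are divisible by `p`, then
`(a)` is the `p`-th power of an ideal. -/
theorem exists_ideal_pow_eq (a : 𝓞 K) (ha : a ≠ 0)
    (h : ∀ v : HeightOneSpectrum (𝓞 K), p ∣ multiplicity v.asIdeal (Ideal.span {a})) :
    ∃ J : Ideal (𝓞 K), J ^ p = Ideal.span {a} := by
  classical
  have hI : Ideal.span {a} ≠ (⊥ : Ideal (𝓞 K)) := by
    simpa [Ideal.span_singleton_eq_bot] using ha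
  refine ⟨∏ᶠ v : HeightOneSpectrum (𝓞 K),
    v.asIdeal ^ (multiplicity v.asIdeal (Ideal.span {a}) / p), ?_⟩
  rw [finprod_pow]
  · conv_rhs => rw [← Ideal.finprod_heightOneSpectrum_pow_multiplicity hI]
    refine finprod_congr fun v => ?_
    rw [← pow_mul, Nat.div_mul_cancel (h v)]
  · refine (Ideal.finite_factors hI).subset ?_
    intro v hv
    rw [Function.mem_mulSupport] at hv
    by_contra hnd
    apply hv
    have h0 : multiplicity v.asIdeal (Ideal.span {a}) = 0 :=
      multiplicity_eq_zero.mpr hnd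
    rw [h0, Nat.zero_div, pow_zero]

/-- The valuation of a nonzero element is `exp` of an integer. -/
theorem valuation_eq_exp (v : HeightOneSpectrum (𝓞 K)) (y : K) (hy : y ≠ 0) :
    ∃ k : ℤ, v.valuation K y = WithZero.exp k := by
  have h0 : v.valuation K y ≠ 0 := (Valuation.ne_zero_iff _).mpr hy
  exact ⟨WithZero.log (v.valuation K y), (WithZero.exp_log h0).symm⟩

/-- If `(a : K) = y ^ p` up to a `v`-unit, the multiplicity of `v` in `(a)` is divisible by `p`. -/
theorem dvd_multiplicity (v : HeightOneSpectrum (𝓞 K)) (a : 𝓞 K) (ha : a ≠ 0) (y : K) (hy : y ≠ 0)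
    (h : v.valuation K (a : K) = v.valuation K y ^ p) :
    p ∣ multiplicity v.asIdeal (Ideal.span {a}) := by
  obtain ⟨k, hk⟩ := valuation_eq_exp v y hy
  rw [NumberField.RingOfIntegers.coe_eq_algebraMap, HeightOneSpectrum.valuation_of_algebraMap,
    v.intValuation_eq_exp_neg_multiplicity ha, hk, ← WithZero.exp_nsmul] at h
  have h2 := WithZero.exp_injective h
  have h3 : ((multiplicity v.asIdeal (Ideal.span {a}) : ℕ) : ℤ) = (p : ℤ) * (-k) := by
    simp only [nsmul_eq_mul] at h2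
    linarith
  have h4 : (p : ℤ) ∣ ((multiplicity v.asIdeal (Ideal.span {a}) : ℕ) : ℤ) := ⟨-k, h3⟩
  exact Int.natCast_dvd_natCast.mp h4

/-- **A1.** If all prime valuations of `α ≠ 0` are divisible by `p`, the principal fractional
ideal `(α)` is the `p`-th power of an (invertible) fractional ideal. -/
theorem exists_root (hp : p ≠ 0) (α : K) (hα : α ≠ 0) (h3 : ValDivisible p α) :
    ∃ I : (FractionalIdeal (𝓞 K)⁰ K)ˣ,
      (I : FractionalIdeal (𝓞 K)⁰ K) ^ p = FractionalIdeal.spanSingleton (𝓞 K)⁰ α := by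
  classical
  -- write `α = a₀ / d`
  obtain ⟨a₀, d, hd, hα'⟩ := IsFractionRing.div_surjective (𝓞 K) α
  have hd0 : d ≠ 0 := nonZeroDivisors.ne_zero hd
  have hdK : (algebraMap (𝓞 K) K d) ≠ 0 := by
    simpa using hd0
  have ha₀ : a₀ ≠ 0 := by
    rintro rfl
    apply hα
    rw [← hα']
    simp
  obtain ⟨q, rfl⟩ : ∃ q, p = q + 1 := Nat.exists_eq_succ_of_ne_zero hp
  set a : 𝓞 K := a₀ * d ^ q with ha_def
  have ha : a ≠ 0 := mul_ne_zero ha₀ (pow_ne_zero _ hd0)
  have haK : (algebraMap (𝓞 K) K a) = α * (algebraMap (𝓞 K) K d) ^ (q + 1) := by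
    rw [ha_def, ← hα', map_mul, map_pow, pow_succ]
    field_simp
  have hdiv : ∀ v : HeightOneSpectrum (𝓞 K),
      (q + 1) ∣ multiplicity v.asIdeal (Ideal.span {a}) := by
    intro v
    obtain ⟨x, hx0, hx⟩ := h3 v
    refine dvd_multiplicity v a ha (algebraMap (𝓞 K) K d / x) (div_ne_zero hdK hx0) ?_
    rw [NumberField.RingOfIntegers.coe_eq_algebraMap, haK, map_mul, map_pow, map_div₀, div_pow]
    rw [map_mul, map_pow] at hx
    have hx' : v.valuation K x ^ (q + 1) ≠ 0 :=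
      pow_ne_zero _ ((Valuation.ne_zero_iff _).mpr hx0)
    rw [eq_div_iff hx', mul_right_comm, hx, one_mul]
  obtain ⟨J, hJ⟩ := exists_ideal_pow_eq a ha hdiv
  have hJ0 : J ≠ ⊥ := by
    rintro rfl
    rw [Ideal.bot_pow (Nat.succ_ne_zero q)] at hJ
    exact ha (by simpa [Ideal.span_singleton_eq_bot] using hJ.symm)
  set I₀ : FractionalIdeal (𝓞 K)⁰ K :=
    (J : FractionalIdeal (𝓞 K)⁰ K) *
      FractionalIdeal.spanSingleton (𝓞 K)⁰ (algebraMap (𝓞 K) K d)⁻¹ with hI₀
  have hI₀pow : I₀ ^ (q + 1) = FractionalIdeal.spanSingleton (𝓞 K)⁰ α := by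
    rw [hI₀, mul_pow, ← FractionalIdeal.coeIdeal_pow, hJ, FractionalIdeal.coeIdeal_span_singleton,
      FractionalIdeal.spanSingleton_pow, FractionalIdeal.spanSingleton_mul_spanSingleton, haK]
    congr 1
    rw [inv_pow, mul_assoc, mul_inv_cancel₀ (pow_ne_zero _ hdK), mul_one]
  have hI₀ne : I₀ ≠ 0 := by
    intro h0
    rw [h0, zero_pow (Nat.succ_ne_zero q)] at hI₀pow
    exact hα (FractionalIdeal.spanSingleton_eq_zero_iff.mp hI₀pow.symm)
  exact ⟨Units.mk0 I₀ hI₀ne, hI₀pow⟩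

/-- The class of a `p`-th root of a principal ideal is killed by `p`. -/
theorem mk_pow_eq_one (α : K) (_hα : α ≠ 0) (I : (FractionalIdeal (𝓞 K)⁰ K)ˣ)
    (hI : (I : FractionalIdeal (𝓞 K)⁰ K) ^ p = FractionalIdeal.spanSingleton (𝓞 K)⁰ α) :
    ClassGroup.mk K I ^ p = 1 := by
  rw [← map_pow, ClassGroup.mk_eq_one_iff, FractionalIdeal.isPrincipal_iff]
  exact ⟨α, by rw [Units.val_pow_eq_pow_val, hI]⟩

/-- **A2.** If the `p`-th root `I` of `(α)` is principal, then `α` is a unit times a `p`-th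
power. -/
theorem exists_unit_mul_pow (α : K) (_hα : α ≠ 0) (I : (FractionalIdeal (𝓞 K)⁰ K)ˣ)
    (hI : (I : FractionalIdeal (𝓞 K)⁰ K) ^ p = FractionalIdeal.spanSingleton (𝓞 K)⁰ α)
    (h1 : ClassGroup.mk K I = 1) :
    ∃ (η : (𝓞 K)ˣ) (a : K), a ≠ 0 ∧ α = ((η : 𝓞 K) : K) * a ^ p := by
  rw [ClassGroup.mk_eq_one_iff, FractionalIdeal.isPrincipal_iff] at h1
  obtain ⟨x, hx⟩ := h1
  rw [hx, FractionalIdeal.spanSingleton_pow, FractionalIdeal.spanSingleton_eq_spanSingleton] at hI
  obtain ⟨z, hz⟩ := hI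
  have hx0 : x ≠ 0 := by
    rintro rfl
    apply I.ne_zero
    rw [hx]
    exact FractionalIdeal.spanSingleton_zero
  refine ⟨z, x, hx0, ?_⟩
  rw [← hz]
  rfl

end Fermat.Agent.S14.ClassAlg.IdealRoot
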